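import Mathlib.FieldTheory.IsAlgClosed.AlgebraicClosure
import Mathlib.FieldTheory.Galois.Basic
import Mathlib.FieldTheory.PerfectClosure
import Mathlib.RingTheory.Localization.FractionRing
import Mathlib.Algebra.Algebra.Rat
import Mathlib.FieldTheory.IsSepClosed

set_option autoImplicit false

/-!
In this version of Mathlib `Algebra ℚ (AlgebraicClosure ℚ)` is found as
`DivisionRing.toRatAlgebra` (this is also the instance used by all the frozen statements), for which
`IsAlgClosure`, `IsGalois`, ... are not found by instance search.  This file supplies the instances.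
-/

namespace Fermat.Agent.Frob

section

theorem isAlgClosure_rat (inst : Algebra ℚ (AlgebraicClosure ℚ)) :
    IsAlgClosure ℚ (AlgebraicClosure ℚ) := by
  have h : inst = AlgebraicClosure.instAlgebra ℚ := Subsingleton.elim _ _
  subst h
  infer_instance

end

instance instIsAlgClosureRatAlgebraicClosure : IsAlgClosure ℚ (AlgebraicClosure ℚ) :=
  isAlgClosure_rat _

instance instIsAlgebraicRatAlgebraicClosure : Algebra.IsAlgebraic ℚ (AlgebraicClosure ℚ) :=
  IsAlgClosure.isAlgebraic

instance instNormalRatAlgebraicClosure : Normal ℚ (AlgebraicClosure ℚ) :=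
  IsAlgClosure.normal _ _

instance instIsGaloisRatAlgebraicClosure : IsGalois ℚ (AlgebraicClosure ℚ) :=
  IsAlgClosure.isGalois _ _

end Fermat.Agent.Frob
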