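import Fermat.Agent.Frob.Center
import Mathlib.RingTheory.Ideal.GoingUp
import Mathlib.FieldTheory.Finite.Basic

set_option autoImplicit false

open Polynomial
open scoped Pointwise

namespace Fermat.Agent.Frob

section

variable {L : Type*} [Field L]

lemma span_isMaximal {ℓ : ℕ} (hℓ : ℓ.Prime) : (Ideal.span {(ℓ : ℤ)}).IsMaximal :=
  PrincipalIdealRing.isMaximal_of_irreducible (Nat.prime_iff_prime_int.mp hℓ).irreducible

lemma center_under {A : ValuationSubring L} {ℓ : ℕ} (hℓ : ℓ.Prime) (hA : A.LiesOverPrime ℓ) :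
    (center A).under ℤ = Ideal.span {(ℓ : ℤ)} := by
  symm
  apply (span_isMaximal hℓ).eq_of_le
  · exact Ideal.IsPrime.ne_top inferInstance
  · rw [Ideal.span_singleton_le_iff_mem, Ideal.mem_comap]
    simpa using (natCast_mem_center_iff A ℓ).mpr hA

lemma center_liesOver {A : ValuationSubring L} {ℓ : ℕ} (hℓ : ℓ.Prime) (hA : A.LiesOverPrime ℓ) :
    (center A).LiesOver (Ideal.span {(ℓ : ℤ)}) :=
  ⟨(center_under hℓ hA).symm⟩

lemma center_isMaximal {A : ValuationSubring L} {ℓ : ℕ} (hℓ : ℓ.Prime) (hA : A.LiesOverPrime ℓ) :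
    (center A).IsMaximal := by
  have h1 := span_isMaximal hℓ
  have h2 := center_liesOver hℓ hA
  exact Ideal.isMaximal_of_isIntegral_of_isMaximal_comap (R := ℤ) (center A)
    (by rw [← Ideal.under_def, center_under hℓ hA]; exact h1)

variable [Algebra ℚ L]

lemma residue_toVal_surjective [Algebra.IsAlgebraic ℚ L]
    {A : ValuationSubring L} {ℓ : ℕ} (hℓ : ℓ.Prime) (hA : A.LiesOverPrime ℓ) :
    Function.Surjective fun b : integralClosure ℤ L => IsLocalRing.residue A (toVal A b) := by
  intro x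
  obtain ⟨y, rfl⟩ := IsLocalRing.residue_surjective x
  obtain ⟨a, b, hb, h⟩ := (mem_iff_exists_center A (y : L)).mp y.2
  have hmax := center_isMaximal hℓ hA
  obtain ⟨b', c, hc, hbc⟩ := hmax.exists_inv hb
  -- b' * b + c = 1
  refine ⟨a * b', ?_⟩
  have h1 : (toVal A b) * y = toVal A a := Subtype.ext h
  have h2 : IsLocalRing.residue A (toVal A c) = 0 := by
    rw [IsLocalRing.residue_eq_zero_iff]; exact hc
  have h3 : IsLocalRing.residue A (toVal A b') * IsLocalRing.residue A (toVal A b) = 1 := by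
    have := congrArg (fun z => IsLocalRing.residue A (toVal A z)) hbc
    simpa [h2] using this
  have h4 := congrArg (IsLocalRing.residue A) h1
  rw [map_mul] at h4
  show IsLocalRing.residue A (toVal A (a * b')) = _
  rw [map_mul, map_mul, ← h4]
  linear_combination (IsLocalRing.residue A y) * h3

lemma smul_toVal {A : ValuationSubring L} (σ : A.decompositionSubgroup ℚ)
    (b : integralClosure ℤ L) : σ • toVal A b = toVal A ((σ : L ≃ₐ[ℚ] L) • b) := rfl

variable [IsGalois ℚ L]

/-- The Galois action on the ring of algebraic integers, with the discrete topology, is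
continuous. -/
lemma continuousSMul_integralClosure :
    let _ : TopologicalSpace (integralClosure ℤ L) := ⊥
    ContinuousSMul (L ≃ₐ[ℚ] L) (integralClosure ℤ L) := by
  let _ : TopologicalSpace (integralClosure ℤ L) := ⊥
  have _ : DiscreteTopology (integralClosure ℤ L) := ⟨rfl⟩
  rw [continuousSMul_iff_stabilizer_isOpen]
  intro b
  have h := stabilizer_isOpen_of_isIntegral (K := ℚ) (L := L) (b : L)
  have h2 : (MulAction.stabilizer (L ≃ₐ[ℚ] L) b : Set (L ≃ₐ[ℚ] L)) =
      MulAction.stabilizer (L ≃ₐ[ℚ] L) (b : L) := by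
    ext σ
    simp only [SetLike.mem_coe, MulAction.mem_stabilizer_iff]
    rw [← Subtype.coe_inj]
    rfl
  rw [h2]
  exact h


/-- The stabilizer of the centre of a valuation subring `A` lying over a prime number surjects onto
the automorphism group of its residue ring; moreover that stabilizer is the decomposition group. -/
theorem exists_decomposition_lift {A : ValuationSubring L} {ℓ : ℕ} (hℓ : ℓ.Prime)
    (hA : A.LiesOverPrime ℓ)
    (f : (integralClosure ℤ L ⧸ center A) ≃+* (integralClosure ℤ L ⧸ center A)) :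
    ∃ σ : A.decompositionSubgroup ℚ, ∀ b : integralClosure ℤ L,
      Ideal.Quotient.mk (center A) ((σ : L ≃ₐ[ℚ] L) • b) = f (Ideal.Quotient.mk (center A) b) := by
  let P : Ideal ℤ := Ideal.span {(ℓ : ℤ)}
  have hP : P.IsMaximal := span_isMaximal hℓ
  have hover : (center A).LiesOver P := center_liesOver hℓ hA
  let _ : TopologicalSpace (integralClosure ℤ L) := ⊥
  have _ : DiscreteTopology (integralClosure ℤ L) := ⟨rfl⟩
  have _ : ContinuousSMul (L ≃ₐ[ℚ] L) (integralClosure ℤ L) := continuousSMul_integralClosure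
  let f' : (integralClosure ℤ L ⧸ center A) ≃ₐ[ℤ ⧸ P] (integralClosure ℤ L ⧸ center A) :=
    { f with
      commutes' := by
        intro r
        obtain ⟨n, rfl⟩ := Ideal.Quotient.mk_surjective r
        have h : ∀ g : ℤ →+* (integralClosure ℤ L ⧸ center A), g n = (n : _) := fun g => by simp
        have h1 := h (((f : (integralClosure ℤ L ⧸ center A) →+* _).comp
          (algebraMap (ℤ ⧸ P) (integralClosure ℤ L ⧸ center A))).comp (Ideal.Quotient.mk P))
        have h2 := h ((algebraMap (ℤ ⧸ P) (integralClosure ℤ L ⧸ center A)).comp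
          (Ideal.Quotient.mk P))
        exact h1.trans h2.symm }
  obtain ⟨⟨σ, hσ⟩, h⟩ := Ideal.Quotient.stabilizerHom_surjective_of_profinite
    (G := L ≃ₐ[ℚ] L) P (center A) f'
  have hσA : σ • A = A := by
    apply center_injective
    rw [center_smul]
    exact hσ
  refine ⟨⟨σ, hσA⟩, fun b => ?_⟩
  have h3 := DFunLike.congr_fun h (Ideal.Quotient.mk (center A) b)
  exact h3

/-- Transitivity of the Galois action on the valuation subrings lying over a prime. -/
theorem exists_smul_eq {A A' : ValuationSubring L} {ℓ : ℕ} (hℓ : ℓ.Prime)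
    (hA : A.LiesOverPrime ℓ) (hA' : A'.LiesOverPrime ℓ) : ∃ σ : L ≃ₐ[ℚ] L, A' = σ • A := by
  let _ : TopologicalSpace (integralClosure ℤ L) := ⊥
  have _ : DiscreteTopology (integralClosure ℤ L) := ⟨rfl⟩
  have _ : ContinuousSMul (L ≃ₐ[ℚ] L) (integralClosure ℤ L) := continuousSMul_integralClosure
  obtain ⟨σ, hσ⟩ := Algebra.IsInvariant.exists_smul_of_under_eq_of_profinite (A := ℤ)
    (G := L ≃ₐ[ℚ] L) (center A) (center A') (by rw [center_under hℓ hA, center_under hℓ hA'])
  refine ⟨σ, center_injective ?_⟩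
  rw [center_smul, hσ]

/-- Existence of Frobenius elements at every valuation subring lying over a prime. -/
theorem exists_isFrobeniusAt {A : ValuationSubring L} {ℓ : ℕ} (hℓ : ℓ.Prime)
    (hA : A.LiesOverPrime ℓ) : ∃ σ : L ≃ₐ[ℚ] L, A.IsFrobeniusAt σ ℓ := by
  let P : Ideal ℤ := Ideal.span {(ℓ : ℤ)}
  have hP : P.IsMaximal := span_isMaximal hℓ
  have hover : (center A).LiesOver P := center_liesOver hℓ hA
  have hmax : (center A).IsMaximal := center_isMaximal hℓ hA
  let _ : Field (ℤ ⧸ P) := Ideal.Quotient.field P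
  let _ : Field (integralClosure ℤ L ⧸ center A) := Ideal.Quotient.field (center A)
  have : Fact ℓ.Prime := ⟨hℓ⟩
  let e : ZMod ℓ ≃+* ℤ ⧸ P := (Int.quotientSpanNatEquivZMod ℓ).symm
  let _ : Fintype (ℤ ⧸ P) := Fintype.ofEquiv (ZMod ℓ) e.toEquiv
  have hcard : Fintype.card (ℤ ⧸ P) = ℓ := by
    rw [← Fintype.card_congr e.toEquiv, ZMod.card]
  have : Algebra.IsIntegral (ℤ ⧸ P) (integralClosure ℤ L ⧸ center A) :=
    Ideal.Quotient.algebra_isIntegral_of_liesOver (center A) P
  have : Algebra.IsAlgebraic (ℤ ⧸ P) (integralClosure ℤ L ⧸ center A) :=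
    Algebra.IsIntegral.isAlgebraic
  obtain ⟨σ, hσ⟩ := exists_decomposition_lift hℓ hA
    (FiniteField.frobeniusAlgEquivOfAlgebraic (ℤ ⧸ P)
      (integralClosure ℤ L ⧸ center A)).toRingEquiv
  refine ⟨σ, σ.2, fun x => ?_⟩
  obtain ⟨b, rfl⟩ := residue_toVal_surjective hℓ hA x
  have h1 := hσ b
  have h2 : (FiniteField.frobeniusAlgEquivOfAlgebraic (ℤ ⧸ P)
      (integralClosure ℤ L ⧸ center A)).toRingEquiv (Ideal.Quotient.mk (center A) b) =
      Ideal.Quotient.mk (center A) (b ^ ℓ) := by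
    rw [map_pow, ← hcard]
    rfl
  rw [h2, Ideal.Quotient.eq] at h1
  have h3 : IsLocalRing.residue A (toVal A ((σ : L ≃ₐ[ℚ] L) • b - b ^ ℓ)) = 0 := by
    rw [IsLocalRing.residue_eq_zero_iff]; exact h1
  rw [map_sub, map_sub, map_pow, map_pow, sub_eq_zero] at h3
  rw [← h3, ← smul_toVal, IsLocalRing.ResidueField.residue_smul]

end

section

/-- Existence of a valuation subring lying over a given prime. -/
theorem exists_liesOverPrime (L : Type*) [Field L] [CharZero L] {ℓ : ℕ} (hℓ : ℓ.Prime) :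
    ∃ A : ValuationSubring L, A.LiesOverPrime ℓ := by
  let R : Subring L := (Int.castRingHom L).range
  have hinj : Function.Injective (Int.castRingHom L).rangeRestrict := fun a b h =>
    Int.cast_injective (congrArg Subtype.val h)
  let I : Ideal R := Ideal.span {(⟨(ℓ : L), ⟨(ℓ : ℤ), by simp⟩⟩ : R)}
  have hI : I ≠ ⊤ := by
    intro h
    rw [Ideal.span_singleton_eq_top] at h
    obtain ⟨⟨_, m, rfl⟩, hm⟩ := isUnit_iff_exists_inv.mp h
    have h1 : ((ℓ : L)) * (m : L) = 1 := congrArg Subtype.val hm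
    have h2 : (ℓ : ℤ) * m = 1 := by exact_mod_cast h1
    have h3 : IsUnit (ℓ : ℤ) := IsUnit.of_mul_eq_one _ h2
    exact (Nat.prime_iff_prime_int.mp hℓ).not_isUnit h3
  obtain ⟨V, -, hV⟩ := Ideal.image_subset_nonunits_valuationSubring I hI
  exact ⟨V, hV ⟨_, Ideal.subset_span rfl, rfl⟩⟩

/-- Existence of a place over `ℓ` and a Frobenius element for it. -/
theorem exists_liesOverPrime_isFrobeniusAt {L : Type*} [Field L] [Algebra ℚ L] [IsGalois ℚ L]
    {ℓ : ℕ} (hℓ : ℓ.Prime) :
    ∃ A : ValuationSubring L, A.LiesOverPrime ℓ ∧ ∃ σ : L ≃ₐ[ℚ] L, A.IsFrobeniusAt σ ℓ := by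
  have : CharZero L := charZero_of_injective_algebraMap (algebraMap ℚ L).injective
  obtain ⟨A, hA⟩ := exists_liesOverPrime L hℓ
  exact ⟨A, hA, exists_isFrobeniusAt hℓ hA⟩

end

end Fermat.Agent.Frob
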