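import Fermat.Prelude.Def_GaloisRep_Adic
import Mathlib.LinearAlgebra.Charpoly.ToMatrix
import Mathlib.LinearAlgebra.Matrix.Charpoly.Coeff

set_option autoImplicit false

open Polynomial
open scoped TensorProduct

namespace Fermat.Agent.Frob

/-- If the characteristic polynomial of an endomorphism is `X ^ 2 - t X + d`, then its trace is
`t`. -/
theorem trace_eq_of_charpoly_eq {A V : Type*} [CommRing A] [Nontrivial A] [AddCommGroup V]
    [Module A V] [Module.Free A V] [Module.Finite A V] (f : Module.End A V) {t d : A}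
    (h : LinearMap.charpoly f = X ^ 2 - C t * X + C d) : LinearMap.trace A V f = t := by
  have hdeg : (LinearMap.charpoly f).natDegree = 2 := by
    rw [h]; compute_degree!
  have hrank : Module.finrank A V = 2 := by
    rw [← LinearMap.charpoly_natDegree f, hdeg]
  let b := Module.Free.chooseBasis A V
  have hcard : Fintype.card (Module.Free.ChooseBasisIndex A V) = 2 := by
    rw [← Module.finrank_eq_card_chooseBasisIndex, hrank]
  have hne : Nonempty (Module.Free.ChooseBasisIndex A V) := by
    rw [← Fintype.card_pos_iff, hcard]; norm_num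
  rw [LinearMap.trace_eq_matrix_trace A b, Matrix.trace_eq_neg_charpoly_coeff,
    LinearMap.charpoly_toMatrix, h, hcard]
  simp [coeff_C, coeff_X_pow]

end Fermat.Agent.Frob

namespace Fermat.Agent.Frob

variable {A : Type} [CommRing A] [IsLocalRing A]

theorem trace_eq_of_isEquiv {ρ₁ ρ₂ : GaloisRepAdic A} (h : ρ₁.IsEquiv ρ₂)
    (σ : AlgebraicClosure ℚ ≃ₐ[ℚ] AlgebraicClosure ℚ) : ρ₁.trace σ = ρ₂.trace σ := by
  obtain ⟨e⟩ := h
  have h1 : ρ₂.ρ σ = e.toLinearEquiv.conj (ρ₁.ρ σ) := by
    ext x
    rw [LinearEquiv.conj_apply_apply, e.map_apply, LinearEquiv.apply_symm_apply]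
  rw [GaloisRepAdic.trace, GaloisRepAdic.trace, h1, LinearMap.trace_conj']

theorem trace_baseChangeAlong {B : Type} [CommRing B] [IsLocalRing B] (φ : A →+* B)
    (hφ : IsLocalHom φ) (ρ : GaloisRepAdic A)
    (σ : AlgebraicClosure ℚ ≃ₐ[ℚ] AlgebraicClosure ℚ) :
    (ρ.baseChangeAlong φ hφ).trace σ = φ (ρ.trace σ) := by
  let _ : Algebra A B := φ.toAlgebra
  exact LinearMap.trace_baseChange (ρ.ρ σ) B

end Fermat.Agent.Frob
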