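import Mathlib.RingTheory.Valuation.LocalSubring
import Mathlib.RingTheory.Valuation.RamificationGroup
import Mathlib.RingTheory.Polynomial.Content
import Mathlib.RingTheory.Invariant.Profinite
import Mathlib.FieldTheory.Galois.Infinite
import Mathlib.FieldTheory.Galois.Profinite
import Mathlib.FieldTheory.KrullTopology
import Fermat.Prelude.Def_EllipticCurve_FrobeniusTrace

set_option autoImplicit false

open Polynomial

namespace Fermat.Agent.Frob

section General

variable {L : Type*} [Field L]

/-- Iterated `divX`. -/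
noncomputable def tailPoly (p : ℤ[X]) (k : ℕ) : ℤ[X] := divX^[k] p

lemma tailPoly_zero (p : ℤ[X]) : tailPoly p 0 = p := rfl

lemma tailPoly_succ (p : ℤ[X]) (k : ℕ) : tailPoly p (k + 1) = divX (tailPoly p k) :=
  Function.iterate_succ_apply' _ _ _

lemma tailPoly_coeff (p : ℤ[X]) (k n : ℕ) : (tailPoly p k).coeff n = p.coeff (n + k) := by
  induction k generalizing n with
  | zero => rfl
  | succ k ih => rw [tailPoly_succ, coeff_divX, ih]; congr 1; omega

/-- Key recursion: `x * b_{k+1} + a_k = b_k`. -/
lemma aeval_tailPoly_succ (p : ℤ[X]) (x : L) (k : ℕ) :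
    aeval x (tailPoly p (k + 1)) * x + (p.coeff k : L) = aeval x (tailPoly p k) := by
  have h := divX_mul_X_add (tailPoly p k)
  have h0 : (tailPoly p k).coeff 0 = p.coeff k := by rw [tailPoly_coeff, zero_add]
  rw [← tailPoly_succ, h0] at h
  conv_rhs => rw [← h]
  simp

lemma aeval_int_mem (V : Subring L) {x : L} (hx : x ∈ V) (p : ℤ[X]) : aeval x p ∈ V := by
  rw [aeval_eq_sum_range]
  exact sum_mem fun i _ => zsmul_mem (pow_mem hx i) _

lemma isIntegral_aeval_tailPoly (p : ℤ[X]) (x : L) (hp : aeval x p = 0) (k : ℕ) :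
    IsIntegral ℤ (aeval x (tailPoly p k)) := by
  by_contra hcon
  have hnot : aeval x (tailPoly p k) ∉ (integralClosure ℤ L).toSubring := fun h => hcon h
  have : IsIntegrallyClosedIn (integralClosure ℤ L).toSubring L :=
    inferInstanceAs (IsIntegrallyClosedIn (integralClosure ℤ L) L)
  obtain ⟨V, -, hV⟩ := Subring.exists_le_valuationSubring_of_isIntegrallyClosedIn hnot
  apply hV
  rcases V.mem_or_inv_mem x with hx | hx
  · exact aeval_int_mem V.toSubring hx _
  · clear hV hnot hcon
    by_cases hx0 : x = 0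
    · exact aeval_int_mem V.toSubring (by rw [hx0]; exact V.zero_mem) _
    induction k with
    | zero => rw [tailPoly_zero, hp]; exact V.zero_mem
    | succ k ih =>
      have h := aeval_tailPoly_succ p x k
      have h2 : aeval x (tailPoly p (k + 1)) = (aeval x (tailPoly p k) - (p.coeff k : L)) * x⁻¹ := by
        rw [← h, add_sub_cancel_right, mul_assoc, mul_inv_cancel₀ hx0, mul_one]
      rw [h2]
      exact V.mul_mem _ _ (sub_mem ih (intCast_mem V _)) hx

/-- Every element of a valuation subring `A` of a field algebraic over `ℚ` is a fraction `a / b` of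
algebraic integers with `b` a unit of `A`. -/
theorem exists_integral_denominator [Algebra ℚ L] [Algebra.IsAlgebraic ℚ L]
    (A : ValuationSubring L) {x : L} (hx : x ∈ A) :
    ∃ b : L, IsIntegral ℤ b ∧ IsIntegral ℤ (b * x) ∧ b ∉ A.nonunits := by
  by_contra hcon
  push Not at hcon
  have halg : IsAlgebraic ℤ x := by
    have h : IsAlgebraic ℚ x := Algebra.IsAlgebraic.isAlgebraic x
    exact (IsFractionRing.isAlgebraic_iff ℤ ℚ L).mpr h
  obtain ⟨p₀, hp₀, hp₀x⟩ := halg
  set p := p₀.primPart with hpdef
  have hprim : p.IsPrimitive := p₀.isPrimitive_primPart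
  have : CharZero L := charZero_of_injective_algebraMap (algebraMap ℚ L).injective
  have hp : aeval x p = 0 := by
    rw [hpdef]
    have := hp₀x
    rw [p₀.eq_C_content_mul_primPart, map_mul, aeval_C] at this
    rcases mul_eq_zero.mp this with h | h
    · exfalso
      rw [algebraMap_int_eq, eq_intCast, Int.cast_eq_zero, content_eq_zero_iff] at h
      exact hp₀ h
    · exact h
  have hint := isIntegral_aeval_tailPoly p x hp
  -- all the `b_{k+1}` are nonunits of `A`
  have hb : ∀ k, aeval x (tailPoly p (k + 1)) ∈ A.nonunits := by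
    intro k
    refine hcon _ (hint (k + 1)) ?_
    have h := aeval_tailPoly_succ p x k
    rw [← eq_sub_iff_add_eq] at h
    rw [h]
    exact (hint k).sub (isIntegral_algebraMap (R := ℤ) (A := L) (x := p.coeff k))
  have hb' : ∀ k, aeval x (tailPoly p k) ∈ A.nonunits := by
    intro k
    cases k with
    | zero => rw [tailPoly_zero, hp]; exact A.nonunits.zero_mem
    | succ k => exact hb k
  have hnu : ∀ y ∈ A.nonunits, y * x ∈ A.nonunits := by
    intro y hy
    rw [ValuationSubring.mem_nonunits_iff] at hy ⊢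
    rw [map_mul]
    exact mul_lt_one_of_lt_of_le hy ((A.valuation_le_one_iff x).mpr hx)
  have hcoeff : ∀ k, ((p.coeff k : ℤ) : L) ∈ A.nonunits := by
    intro k
    have h := aeval_tailPoly_succ p x k
    have h2 : ((p.coeff k : ℤ) : L) =
        aeval x (tailPoly p k) - aeval x (tailPoly p (k + 1)) * x := by
      rw [← h]; ring
    rw [h2]
    exact sub_mem (hb' k) (hnu _ (hb k))
  -- the ideal of integers lying in the maximal ideal
  let I : Ideal ℤ := (IsLocalRing.maximalIdeal A).comap (Int.castRingHom A)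
  have hI : ∀ n : ℤ, n ∈ I ↔ (n : L) ∈ A.nonunits := by
    intro n
    rw [Ideal.mem_comap, ← A.coe_mem_nonunits_iff]
    simp
  obtain ⟨d, hd⟩ := (IsPrincipalIdealRing.principal I).principal
  have hd' : ∀ n : ℤ, n ∈ I ↔ d ∣ n := by
    intro n
    rw [hd]
    exact Ideal.mem_span_singleton
  have hdvd : C d ∣ p := by
    rw [C_dvd_iff_dvd_coeff]
    intro k
    exact (hd' _).mp ((hI _).mpr (hcoeff k))
  have hunit : IsUnit d := hprim d hdvd
  have h1 : (1 : ℤ) ∈ I := (hd' 1).mpr hunit.dvd
  rw [hI] at h1
  have : ((1 : ℤ) : L) = 1 := by simp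
  rw [this, ValuationSubring.mem_nonunits_iff, map_one] at h1
  exact lt_irrefl _ h1

end General

end Fermat.Agent.Frob
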