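import Fermat.Agent.Frob.Basic

set_option autoImplicit false

open Polynomial
open scoped Pointwise

namespace Fermat.Agent.Frob

section Center

variable {L : Type*} [Field L]

lemma mem_of_isIntegral (A : ValuationSubring L) {x : L} (hx : IsIntegral ℤ x) : x ∈ A := by
  have h : IsIntegral A x := hx.tower_top
  obtain ⟨y, hy⟩ := IsIntegrallyClosed.isIntegral_iff.mp h
  rw [← hy]
  exact y.2

/-- The inclusion of the ring of all algebraic integers into a valuation subring. -/
def toVal (A : ValuationSubring L) : integralClosure ℤ L →+* A where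
  toFun x := ⟨x, mem_of_isIntegral A x.2⟩
  map_zero' := rfl
  map_one' := rfl
  map_add' _ _ := rfl
  map_mul' _ _ := rfl

@[simp] lemma coe_toVal (A : ValuationSubring L) (x : integralClosure ℤ L) :
    ((toVal A x : A) : L) = x := rfl

/-- The centre of a valuation subring on the ring of all algebraic integers. -/
def center (A : ValuationSubring L) : Ideal (integralClosure ℤ L) :=
  (IsLocalRing.maximalIdeal A).comap (toVal A)

instance center_isPrime (A : ValuationSubring L) : (center A).IsPrime :=
  Ideal.comap_isPrime _ _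

lemma mem_center_iff (A : ValuationSubring L) (x : integralClosure ℤ L) :
    x ∈ center A ↔ (x : L) ∈ A.nonunits := by
  rw [center, Ideal.mem_comap, ← A.coe_mem_nonunits_iff, coe_toVal]

lemma natCast_mem_center_iff (A : ValuationSubring L) (q : ℕ) :
    (q : integralClosure ℤ L) ∈ center A ↔ A.LiesOverPrime q := by
  rw [mem_center_iff]; rfl

variable [Algebra ℚ L] [Algebra.IsAlgebraic ℚ L]

lemma mem_iff_exists_center (A : ValuationSubring L) (x : L) :
    x ∈ A ↔ ∃ a b : integralClosure ℤ L, b ∉ center A ∧ (b : L) * x = a := by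
  constructor
  · intro hx
    obtain ⟨b, hb, hbx, hbA⟩ := exists_integral_denominator A hx
    exact ⟨⟨b * x, hbx⟩, ⟨b, hb⟩, fun h => hbA ((mem_center_iff A _).mp h), rfl⟩
  · rintro ⟨a, b, hb, h⟩
    rw [mem_center_iff, ValuationSubring.mem_nonunits_iff] at hb
    have hb1 : A.valuation (b : L) = 1 := by
      apply le_antisymm ((A.valuation_le_one_iff _).mpr (mem_of_isIntegral A b.2))
      exact not_lt.mp hb
    rw [← A.valuation_le_one_iff]
    have h2 := congrArg A.valuation h
    rw [map_mul, hb1, one_mul] at h2
    rw [h2]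
    exact (A.valuation_le_one_iff _).mpr (mem_of_isIntegral A a.2)

theorem center_injective {A A' : ValuationSubring L} (h : center A = center A') : A = A' := by
  ext x
  rw [mem_iff_exists_center, mem_iff_exists_center, h]

omit [Algebra.IsAlgebraic ℚ L] in
lemma center_smul (σ : L ≃ₐ[ℚ] L) (A : ValuationSubring L) : center (σ • A) = σ • center A := by
  ext x
  rw [Ideal.mem_pointwise_smul_iff_inv_smul_mem, mem_center_iff, mem_center_iff,
    integralClosure.coe_smul, ValuationSubring.mem_nonunits_iff_or,
    ValuationSubring.mem_nonunits_iff_or, ValuationSubring.mem_pointwise_smul_iff_inv_smul_mem]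
  simp [AlgEquiv.smul_def]

end Center

section Galois

variable {L : Type*} [Field L] [Algebra ℚ L] [IsGalois ℚ L]

instance isInvariant_integralClosure : Algebra.IsInvariant ℤ (integralClosure ℤ L) (L ≃ₐ[ℚ] L) where
  isInvariant b hb := by
    have h1 : ∀ σ : L ≃ₐ[ℚ] L, σ (b : L) = b := fun σ => congrArg Subtype.val (hb σ)
    obtain ⟨q, hq⟩ := (InfiniteGalois.mem_range_algebraMap_iff_fixed (k := ℚ) (b : L)).mpr h1
    have h2 : IsIntegral ℤ q := by
      have : IsIntegral ℤ (algebraMap ℚ L q) := by rw [hq]; exact b.2
      exact (isIntegral_algebraMap_iff (algebraMap ℚ L).injective).mp this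
    obtain ⟨n, hn⟩ := IsIntegrallyClosed.isIntegral_iff.mp h2
    refine ⟨n, Subtype.ext ?_⟩
    rw [← hq, ← hn]
    simp

end Galois

end Fermat.Agent.Frob
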